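/-
S18 / Program J, leaf C1-D1(d) (helper43): the SWAP lemma, standalone.

Setting: `F/K` a field extension, `x : F`, `c : K`; a place `P` of `F/K` "lies over `c`" when
`0 < P.ord (x - c)`.

* `ord_aeval_of_over`  (= FIB4): for `P` over `c` and `p ≠ 0`,
  `p(x) ≠ 0` and `P.ord (p(x)) = p.rootMultiplicity c * P.ord (x - c)`.
* `exists_ord_eq_mul`  : an element of `K(x)` has order `ν * P.ord (x - c)` at every `P` over `c`,
  with `ν` independent of `P`.
* `exists_value`       : an element of `K(x)` regular at one place over `c` is `a + (x - c) * s`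
  with `a : K` and `s ∈ K(x)` regular at every place over `c`.
* `exists_swap`        : if `∑ r_i θ_i` (with `θ_i` regular over `c`, `r_i ∈ K(x)`) is regular over `c`
  but some `r_i` has a pole over `c`, then there is `a ∈ K^μ ∖ 0` with `(x - c)⁻¹ * ∑ a_i θ_i` regular
  over `c`; more precisely `(x - c)^n * r_i = a_i * (x - c)⁻¹ + s_i` with `s_i ∈ K(x)` regular over `c`.
-/
import Mathlib
import Fermat.Prelude.Def_AlgebraicCurve_DivisorClassGroup
import Fermat.Agent.S24.H52.AddValMore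

set_option autoImplicit false

open AlgebraicCurve IntermediateField Polynomial

noncomputable section

namespace Fermat.Agent.S18.H43

variable {K : Type*} [Field K] {F : Type*} [Field F] [Algebra K F]

/-- `0 ≤ P.ord g` is membership in the valuation ring (also for `g = 0`). -/
theorem ord_nonneg_iff_mem (P : Place K F) (g : F) :
    0 ≤ P.ord g ↔ g ∈ P.toValuationSubring := by
  by_cases hg : g = 0
  · subst hg
    simp [Place.ord_zero, zero_mem]
  · exact (Fermat.Agent.S24.H52.mem_iff_ord_nonneg P hg).symm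

/-- Constants have order `0` (also `0`, by the convention `P.ord 0 = 0`). -/
theorem ord_const (P : Place K F) (a : K) : P.ord (algebraMap K F a) = 0 := by
  have h1 := Fermat.Agent.S24.H52.ord_nonneg_of_mem P (P.algebraMap_mem' a)
  have h2 := Fermat.Agent.S24.H52.ord_nonneg_of_mem P (P.algebraMap_mem' a⁻¹)
  rw [map_inv₀, P.ord_inv] at h2
  omega

/-- **FIB4**: the order of a polynomial in `x` at a place over `c`. -/
theorem ord_aeval_of_over (x : F) (P : Place K F) (c : K)
    (hP : 0 < P.ord (x - algebraMap K F c)) {p : K[X]} (hp : p ≠ 0) :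
    aeval x p ≠ 0 ∧
      P.ord (aeval x p) = (p.rootMultiplicity c : ℤ) * P.ord (x - algebraMap K F c) := by
  have hπ0 : x - algebraMap K F c ≠ 0 := by
    intro h
    rw [h, Place.ord_zero] at hP
    exact lt_irrefl _ hP
  have hK : ∀ a : K, algebraMap K F a ≠ 0 → P.ord (algebraMap K F a) = 0 :=
    fun a _ => ord_const P a
  have hp' : p.comp (X + C c) ≠ 0 := by
    intro h
    exact hp (Polynomial.comp_X_add_C_eq_zero_iff.mp h)
  have hev : aeval (x - algebraMap K F c) (p.comp (X + C c)) = aeval x p := by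
    rw [Polynomial.aeval_comp]
    congr 1
    simp
  have h := (Fermat.Agent.S24.H52.isAddVal_ord P).map_aeval hK hP hπ0 hp'
  rw [hev] at h
  rw [Polynomial.rootMultiplicity_eq_rootMultiplicity]
  exact h

/-- An element of `K(x)` has order `ν * P.ord (x - c)` at every place `P` over `c`. -/
theorem exists_ord_eq_mul (x : F) (c : K) (r : K⟮x⟯) :
    ∃ ν : ℤ, ∀ P : Place K F, 0 < P.ord (x - algebraMap K F c) →
      P.ord (r : F) = ν * P.ord (x - algebraMap K F c) := by
  obtain ⟨p, q, hpq⟩ := (mem_adjoin_simple_iff K (r : F)).mp r.2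
  by_cases hr : (r : F) = 0
  · refine ⟨0, fun P _ => ?_⟩
    rw [hr, Place.ord_zero, zero_mul]
  · have hp0 : aeval x p ≠ 0 := by
      intro h; apply hr; rw [hpq, h, zero_div]
    have hq0 : aeval x q ≠ 0 := by
      intro h; apply hr; rw [hpq, h, div_zero]
    have hp : p ≠ 0 := by
      rintro rfl; exact hp0 (map_zero _)
    have hq : q ≠ 0 := by
      rintro rfl; exact hq0 (map_zero _)
    refine ⟨(p.rootMultiplicity c : ℤ) - (q.rootMultiplicity c : ℤ), fun P hP => ?_⟩
    rw [hpq, (Fermat.Agent.S24.H52.isAddVal_ord P).map_div hp0 hq0,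
      (ord_aeval_of_over x P c hP hp).2, (ord_aeval_of_over x P c hP hq).2]
    ring

/-- A polynomial in `x` lies in `K(x)`. -/
theorem aeval_mem_adjoin_simple (x : F) (p : K[X]) : aeval x p ∈ K⟮x⟯ :=
  (mem_adjoin_simple_iff K _).mpr ⟨p, 1, by simp⟩

/-- **Value at `c`**: an element `t` of `K(x)` which is regular at one place over `c` can be written
`t = a + (x - c) * s` with `a : K` and `s ∈ K(x)` regular at every place over `c`. -/
theorem exists_value (x : F) (c : K) (P₀ : Place K F)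
    (hP₀ : 0 < P₀.ord (x - algebraMap K F c)) (t : K⟮x⟯) (ht : 0 ≤ P₀.ord (t : F)) :
    ∃ (a : K) (s : K⟮x⟯), (t : F) = algebraMap K F a + (x - algebraMap K F c) * (s : F) ∧
      ∀ P : Place K F, 0 < P.ord (x - algebraMap K F c) → 0 ≤ P.ord (s : F) := by
  obtain ⟨p, q, hpq⟩ := (mem_adjoin_simple_iff K (t : F)).mp t.2
  by_cases htz : (t : F) = 0
  · refine ⟨0, 0, ?_, fun P _ => ?_⟩
    · rw [htz]; simp
    · simp [Place.ord_zero]
  have hp0 : aeval x p ≠ 0 := by
    intro h; apply htz; rw [hpq, h, zero_div]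
  have hq0 : aeval x q ≠ 0 := by
    intro h; apply htz; rw [hpq, h, div_zero]
  have hp : p ≠ 0 := by
    rintro rfl; exact hp0 (map_zero _)
  have hq : q ≠ 0 := by
    rintro rfl; exact hq0 (map_zero _)
  have he0 := hP₀
  -- split off the powers of `X - c`
  obtain ⟨p₁, hp₁, hp₁d⟩ := Polynomial.exists_eq_pow_rootMultiplicity_mul_and_not_dvd p hp c
  obtain ⟨q₁, hq₁, hq₁d⟩ := Polynomial.exists_eq_pow_rootMultiplicity_mul_and_not_dvd q hq c
  set α := p.rootMultiplicity c with hα
  set β := q.rootMultiplicity c with hβ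
  -- `β ≤ α` from regularity at `P₀`
  have hord : P₀.ord (t : F) = ((α : ℤ) - (β : ℤ)) * P₀.ord (x - algebraMap K F c) := by
    rw [hpq, (Fermat.Agent.S24.H52.isAddVal_ord P₀).map_div hp0 hq0,
      (ord_aeval_of_over x P₀ c hP₀ hp).2, (ord_aeval_of_over x P₀ c hP₀ hq).2]
    ring
  have hβα : β ≤ α := by
    by_contra hlt
    push Not at hlt
    have h1 : ((α : ℤ) - (β : ℤ)) * P₀.ord (x - algebraMap K F c) < 0 := by
      apply mul_neg_of_neg_of_pos _ hP₀
      omega
    rw [← hord] at h1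
    omega
  have hq₁c : q₁.eval c ≠ 0 := fun h => hq₁d (Polynomial.dvd_iff_isRoot.mpr h)
  have hq₁0 : q₁ ≠ 0 := by
    rintro rfl; exact hq₁c (by simp)
  have hq₁x : aeval x q₁ ≠ 0 := (ord_aeval_of_over x P₀ c hP₀ hq₁0).1
  have hπ0 : x - algebraMap K F c ≠ 0 := by
    intro h
    rw [h, Place.ord_zero] at hP₀
    exact lt_irrefl _ hP₀
  -- the numerator after cancelling
  set u : K[X] := (X - C c) ^ (α - β) * p₁ with hu
  have hXc : aeval x (X - C c : K[X]) = x - algebraMap K F c := by simp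
  have htu : (t : F) = aeval x u / aeval x q₁ := by
    rw [hpq]
    conv_lhs => rw [hp₁, hq₁]
    rw [hu]
    simp only [map_mul, map_pow, hXc]
    have h3 : (x - algebraMap K F c) ^ α
        = (x - algebraMap K F c) ^ (α - β) * (x - algebraMap K F c) ^ β := by
      rw [← pow_add, Nat.sub_add_cancel hβα]
    rw [h3]
    field_simp
  set a : K := u.eval c / q₁.eval c with ha
  -- `u - a q₁` vanishes at `c`
  have hroot : (u - C a * q₁).IsRoot c := by
    simp only [Polynomial.IsRoot, Polynomial.eval_sub, Polynomial.eval_mul, Polynomial.eval_C, ha]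
    field_simp
    ring
  obtain ⟨N₁, hN₁⟩ := Polynomial.dvd_iff_isRoot.mpr hroot
  refine ⟨a, ⟨aeval x N₁ / aeval x q₁, (mem_adjoin_simple_iff K _).mpr ⟨N₁, q₁, rfl⟩⟩, ?_, ?_⟩
  · show (t : F) = algebraMap K F a + (x - algebraMap K F c) * (aeval x N₁ / aeval x q₁)
    have h4 : aeval x u - algebraMap K F a * aeval x q₁
        = (x - algebraMap K F c) * aeval x N₁ := by
      have := congrArg (aeval x) hN₁
      simpa [hXc] using this
    rw [htu]
    field_simp
    linear_combination h4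
  · intro P hP
    show 0 ≤ P.ord (aeval x N₁ / aeval x q₁)
    by_cases hN : N₁ = 0
    · rw [hN]; simp [Place.ord_zero]
    · have h5 := ord_aeval_of_over x P c hP hN
      have h6 := ord_aeval_of_over x P c hP hq₁0
      rw [(Fermat.Agent.S24.H52.isAddVal_ord P).map_div h5.1 h6.1, h5.2, h6.2,
        Polynomial.rootMultiplicity_eq_zero hq₁c]
      have : (0 : ℤ) ≤ (N₁.rootMultiplicity c : ℤ) * P.ord (x - algebraMap K F c) :=
        mul_nonneg (Int.natCast_nonneg _) hP.le
      simpa using this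

/-- **SWAP lemma** (C1-D1(d)).  Let `θ_i` be regular over `c`, `r_i ∈ K(x)`, `f = ∑ r_i θ_i` regular
over `c`, and suppose some `r_i` has a pole at some place over `c`.  Then there are `a ∈ K^μ ∖ 0`,
`s_i ∈ K(x)` regular over `c` and `n` with `(x - c)^n * r_i = a_i * (x - c)⁻¹ + s_i` for all `i`;
consequently `(x - c)⁻¹ * ∑ a_i θ_i = (x - c)^n * f - ∑ s_i θ_i` is regular over `c`. -/
theorem exists_swap (x : F) (c : K) {μ : ℕ} (θ : Fin μ → F)
    (hθ : ∀ i, ∀ P : Place K F, 0 < P.ord (x - algebraMap K F c) → 0 ≤ P.ord (θ i))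
    (r : Fin μ → K⟮x⟯)
    (hf : ∀ P : Place K F, 0 < P.ord (x - algebraMap K F c) →
      0 ≤ P.ord (∑ i, (r i : F) * θ i))
    (hr : ∃ i, ∃ P : Place K F, 0 < P.ord (x - algebraMap K F c) ∧ P.ord (r i : F) < 0) :
    ∃ (a : Fin μ → K) (s : Fin μ → K⟮x⟯) (n : ℕ), a ≠ 0 ∧
      (∀ i, ∀ P : Place K F, 0 < P.ord (x - algebraMap K F c) → 0 ≤ P.ord (s i : F)) ∧
      (∀ i, (x - algebraMap K F c) ^ n * (r i : F)
        = algebraMap K F (a i) * (x - algebraMap K F c)⁻¹ + (s i : F)) ∧
      (x - algebraMap K F c)⁻¹ * ∑ i, a i • θ i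
        = (x - algebraMap K F c) ^ n * ∑ i, (r i : F) * θ i - ∑ i, (s i : F) * θ i ∧
      ∀ P : Place K F, 0 < P.ord (x - algebraMap K F c) →
        0 ≤ P.ord ((x - algebraMap K F c)⁻¹ * ∑ i, a i • θ i) := by
  classical
  obtain ⟨i₀, P₀, hP₀, hneg⟩ := hr
  set π : F := x - algebraMap K F c with hπ
  have hπ0 : π ≠ 0 := by
    intro h
    rw [h, Place.ord_zero] at hP₀
    exact lt_irrefl _ hP₀
  have hπmem : π ∈ K⟮x⟯ :=
    sub_mem (mem_adjoin_simple_self K x) (IntermediateField.algebraMap_mem _ c)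
  -- uniform orders
  choose ν hν₁ using fun i => exists_ord_eq_mul x c (r i)
  have hν : ∀ i (P : Place K F), 0 < P.ord π → P.ord (r i : F) = ν i * P.ord π := hν₁
  have hν₀ : ν i₀ < 0 := by
    have h1 := hν i₀ P₀ hP₀
    rw [h1] at hneg
    by_contra h2
    push Not at h2
    have := mul_nonneg h2 hP₀.le
    omega
  -- the maximal pole order
  have hne : (Finset.univ : Finset (Fin μ)).Nonempty := ⟨i₀, Finset.mem_univ _⟩
  obtain ⟨i₁, -, hmax⟩ := Finset.exists_max_image Finset.univ (fun i => (-ν i).toNat) hne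
  set N : ℕ := (-ν i₁).toNat with hN
  have hNpos : 1 ≤ N := by
    have h1 := hmax i₀ (Finset.mem_univ _)
    have h2 : 1 ≤ (-ν i₀).toNat := by omega
    omega
  have hNν : ∀ i, -ν i ≤ (N : ℤ) := by
    intro i
    have h1 := hmax i (Finset.mem_univ _)
    have h2 : -ν i ≤ ((-ν i).toNat : ℤ) := Int.self_le_toNat _
    have h3 : ((-ν i).toNat : ℤ) ≤ (N : ℤ) := by exact_mod_cast h1
    omega
  have hNν₁ : -ν i₁ = (N : ℤ) := by
    have h2 : 0 ≤ -ν i₁ := by
      by_contra h3
      push Not at h3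
      have : (-ν i₁).toNat = 0 := Int.toNat_eq_zero.mpr h3.le
      omega
    rw [hN]; exact (Int.toNat_of_nonneg h2).symm
  -- `t_i = π^N r_i` is regular at `P₀`
  set t : Fin μ → K⟮x⟯ := fun i => (⟨π, hπmem⟩ : K⟮x⟯) ^ N * r i with ht
  have htc : ∀ i, ((t i : K⟮x⟯) : F) = π ^ N * (r i : F) := fun i => by
    simp [ht]
  have htord : ∀ i, (r i : F) ≠ 0 → P₀.ord ((t i : K⟮x⟯) : F) = ((N : ℤ) + ν i) * P₀.ord π := by
    intro i hri
    rw [htc, (Fermat.Agent.S24.H52.isAddVal_ord P₀).map_mul (pow_ne_zero _ hπ0) hri,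
      (Fermat.Agent.S24.H52.isAddVal_ord P₀).map_pow hπ0, hν i P₀ hP₀]
    ring
  have htreg : ∀ i, 0 ≤ P₀.ord ((t i : K⟮x⟯) : F) := by
    intro i
    by_cases hri : (r i : F) = 0
    · rw [htc, hri, mul_zero, Place.ord_zero]
    · rw [htord i hri]
      exact mul_nonneg (by have := hNν i; omega) hP₀.le
  choose a s has₁ hsreg₁ using fun i => exists_value x c P₀ hP₀ (t i) (htreg i)
  have has : ∀ i, ((t i : K⟮x⟯) : F) = algebraMap K F (a i) + π * (s i : F) := has₁
  have hsreg : ∀ i (P : Place K F), 0 < P.ord π → 0 ≤ P.ord (s i : F) := hsreg₁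
  -- the key identities
  have hkey : ∀ i, π ^ (N - 1) * (r i : F) = algebraMap K F (a i) * π⁻¹ + (s i : F) := by
    intro i
    have h1 := has i
    rw [htc] at h1
    have h2 : π ^ N = π ^ (N - 1) * π := by
      rw [← pow_succ, Nat.sub_add_cancel hNpos]
    rw [h2] at h1
    field_simp
    linear_combination h1
  have hsum : π⁻¹ * ∑ i, a i • θ i
      = π ^ (N - 1) * ∑ i, (r i : F) * θ i - ∑ i, (s i : F) * θ i := by
    rw [Finset.mul_sum, Finset.mul_sum, ← Finset.sum_sub_distrib]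
    refine Finset.sum_congr rfl fun i _ => ?_
    rw [Algebra.smul_def, ← mul_assoc (π ^ (N - 1)), hkey i]
    ring
  refine ⟨a, s, N - 1, ?_, hsreg, hkey, hsum, ?_⟩
  · -- `a i₁ ≠ 0`
    intro ha0
    have ha₁ : a i₁ = 0 := by rw [ha0]; rfl
    have hri₁ : (r i₁ : F) ≠ 0 := by
      intro h
      have h1 := hν i₁ P₀ hP₀
      rw [h, Place.ord_zero] at h1
      have h2 : ν i₁ * P₀.ord π < 0 := by
        apply mul_neg_of_neg_of_pos _ hP₀
        omega
      omega
    have h1 := htord i₁ hri₁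
    have h2 : ((N : ℤ) + ν i₁) = 0 := by omega
    rw [h2, zero_mul] at h1
    have h3 := has i₁
    rw [ha₁, map_zero, zero_add] at h3
    have htne : ((t i₁ : K⟮x⟯) : F) ≠ 0 := by
      rw [htc]; exact mul_ne_zero (pow_ne_zero _ hπ0) hri₁
    have hs0 : (s i₁ : F) ≠ 0 := by
      intro h; apply htne; rw [h3, h, mul_zero]
    rw [h3, (Fermat.Agent.S24.H52.isAddVal_ord P₀).map_mul hπ0 hs0] at h1
    have := hsreg i₁ P₀ hP₀
    omega
  · intro P hP
    rw [hsum, ord_nonneg_iff_mem]
    have hπP : π ∈ P.toValuationSubring := (ord_nonneg_iff_mem P π).mp hP.le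
    refine sub_mem (mul_mem (pow_mem hπP _) ((ord_nonneg_iff_mem P _).mp (hf P hP))) ?_
    refine sum_mem fun i _ => mul_mem ((ord_nonneg_iff_mem P _).mp (hsreg i P hP))
      ((ord_nonneg_iff_mem P _).mp (hθ i P hP))

end Fermat.Agent.S18.H43
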