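/-
S18 / Program J, leaf C1-D5 (helper43, independent backup copy): the NILPOTENTS at the branch point
of a residue disc — the `hyNil` / `hyInd` inputs of the local discriminant lemma `H8.discLocal`,
stated in `F`-terms.

Setting: `F/K` a function field, `x : F`, `A` a valuation subring of `K`, `O` a valuation subring
of `F`; `H74.discRing A O x b = S_b`.  A place `P` "lies over `b0`" when
`0 < P.ord (x - b0)`.

* `exists_vanishing_vectors` (D5a): for `θ : Fin μ → F` having a value in `K` at every place of a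
  finite set `T`, there are `r ≥ μ - |T|` linearly independent vectors `v k ∈ K^μ`, orthonormal
  for the lattice `A^μ`, such that every `Y k = ∑ i, v k i • θ i` vanishes at every place of `T`.
* `mem_nonunits_of_orthonormal` : an orthonormal family of `K^μ` is independent modulo `m_A`:
  `∑ c k • v k ∈ m_A · A^μ → ∀ k, c k ∈ m_A`.
* `exists_pow_eq_mul_of_vanishing` (D5b): if `Y ∈ S_b` vanishes at the places over `b0`, and
  `ord_P (x - b0) ≤ μ` there, then `Y ^ μ = (x - b0) * w` with `w ∈ S_b`.
* `exists_nilpotents` (D5, consumer form): for `K` algebraically closed of characteristic `0`,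
  `x` transcendental, `μ = [F : K(x)]`, `θ i ∈ S_b`: vectors `v k` as above with
  `r + #{P over b0} ≥ μ`, `Y k ∈ S_b` and `Y k ^ μ = (x - b0) * w k`, `w k ∈ S_b`.
-/
import Mathlib
import Fermat.Prelude.Def_AlgebraicCurve_DivisorClassGroup
import Fermat.Agent.S24.Residue
import Fermat.Agent.S24.Ord
import Fermat.Agent.S18.H74.CoreDefs
import Fermat.Agent.S18.H49.Echelon
import Fermat.Agent.S18.H42.Fibres
import Fermat.Agent.S18.H43.Swap

set_option autoImplicit false

open AlgebraicCurve IntermediateField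

noncomputable section

namespace Fermat.Agent.S18.H43

variable {K : Type*} [Field K] {F : Type*} [Field F] [Algebra K F]

/-- "`f` vanishes at `P`" (in the guarded form `f = 0 ∨ 0 < P.ord f`) is membership in the maximal
ideal of the valuation ring of `P`. -/
theorem vanish_iff_valuation_lt_one (P : Place K F) (f : F) :
    (f = 0 ∨ 0 < P.ord f) ↔ P.toValuationSubring.valuation f < 1 := by
  rw [← ValuationSubring.mem_nonunits_iff]
  by_cases hf : f = 0
  · subst hf
    simp
  · rw [← Fermat.Agent.S24.H94.ord_pos_iff_mem_nonunits P hf]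
    simp [hf]

/-- **D5a.** Vectors of `K^μ`, orthonormal for `A^μ`, whose `θ`-combinations vanish on a finite set
`T` of places; there are at least `μ - |T|` of them. -/
theorem exists_vanishing_vectors (A : ValuationSubring K) {μ : ℕ} (θ : Fin μ → F)
    (T : Finset (Place K F))
    (hval : ∀ P ∈ T, ∀ i, ∃ c : K, θ i = algebraMap K F c ∨ 0 < P.ord (θ i - algebraMap K F c)) :
    ∃ (r : ℕ) (v : Fin r → Fin μ → K), μ ≤ r + T.card ∧ LinearIndependent K v ∧
      (∀ c : Fin r → K, (∀ i, (∑ k, c k • v k) i ∈ A) ↔ ∀ k, c k ∈ A) ∧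
      ∀ k, ∀ P ∈ T, (∑ i, v k i • θ i) = 0 ∨ 0 < P.ord (∑ i, v k i • θ i) := by
  classical
  choose! c hc using hval
  let M : Matrix T (Fin μ) K := fun P i => c P.1 i
  let E : (Fin μ → K) →ₗ[K] (T → K) := M.mulVecLin
  obtain ⟨d, b, hli, hspan, hon⟩ := Fermat.Agent.S18.H49.exists_orthonormal_pi A (LinearMap.ker E)
  have hd : Module.finrank K (LinearMap.ker E) = d := by
    rw [← hspan, finrank_span_eq_card hli, Fintype.card_fin]
  have hrn := LinearMap.finrank_range_add_finrank_ker E
  have hrange : Module.finrank K (LinearMap.range E) ≤ T.card := by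
    have := Submodule.finrank_le (LinearMap.range E)
    simpa using this
  have hμ : Module.finrank K (Fin μ → K) = μ := by simp
  refine ⟨d, b, by omega, hli, hon, fun k P hP => ?_⟩
  rw [vanish_iff_valuation_lt_one]
  have hbk : b k ∈ LinearMap.ker E := hspan ▸ Submodule.subset_span ⟨k, rfl⟩
  have hE : ∑ i, c P i * b k i = 0 := by
    have h1 : E (b k) ⟨P, hP⟩ = 0 := by
      rw [LinearMap.mem_ker.mp hbk]
      rfl
    simpa [E, M, Matrix.mulVec, dotProduct] using h1
  have hY : ∑ i, b k i • θ i = ∑ i, b k i • (θ i - algebraMap K F (c P i)) := by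
    have h2 : ∑ i, b k i • (θ i - algebraMap K F (c P i)) =
        ∑ i, b k i • θ i - algebraMap K F (∑ i, c P i * b k i) := by
      rw [map_sum, ← Finset.sum_sub_distrib]
      refine Finset.sum_congr rfl fun i _ => ?_
      rw [smul_sub, Algebra.smul_def (b k i) (algebraMap K F (c P i)), ← map_mul, mul_comm]
    rw [h2, hE, map_zero, sub_zero]
  rw [hY]
  refine Valuation.map_sum_lt _ one_ne_zero fun i _ => ?_
  rw [Algebra.smul_def, map_mul]
  have h1 : P.toValuationSubring.valuation (algebraMap K F (b k i)) ≤ 1 :=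
    (ValuationSubring.valuation_le_one_iff _ _).mpr (P.algebraMap_mem' _)
  have h2 : P.toValuationSubring.valuation (θ i - algebraMap K F (c P i)) < 1 := by
    rw [← vanish_iff_valuation_lt_one]
    rcases hc P hP i with h | h
    · left
      rw [h, sub_self]
    · right
      exact h
  calc P.toValuationSubring.valuation (algebraMap K F (b k i)) *
        P.toValuationSubring.valuation (θ i - algebraMap K F (c P i))
      ≤ 1 * P.toValuationSubring.valuation (θ i - algebraMap K F (c P i)) := by gcongr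
    _ < 1 := by rwa [one_mul]

/-- An orthonormal family of `K^μ` is independent modulo the maximal ideal of `A`. -/
theorem mem_nonunits_of_orthonormal (A : ValuationSubring K) {r μ : ℕ} (v : Fin r → Fin μ → K)
    (hli : LinearIndependent K v)
    (hon : ∀ c : Fin r → K, (∀ i, (∑ k, c k • v k) i ∈ A) ↔ ∀ k, c k ∈ A)
    (c : Fin r → K) (h : ∀ i, (∑ k, c k • v k) i ∈ A.nonunits) : ∀ k, c k ∈ A.nonunits := by
  classical
  by_cases hw0 : ∑ k, c k • v k = 0
  · have hc0 := Fintype.linearIndependent_iff.mp hli c hw0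
    intro k
    rw [hc0 k]
    simp
  · have hne : ∃ i, (∑ k, c k • v k) i ≠ 0 := by
      by_contra hcon
      push Not at hcon
      exact hw0 (funext hcon)
    obtain ⟨i1, hi1⟩ := hne
    obtain ⟨i₀, -, hmax⟩ := Finset.exists_max_image (Finset.univ : Finset (Fin μ))
      (fun i => A.valuation ((∑ k, c k • v k) i)) ⟨i1, Finset.mem_univ _⟩
    set t : K := (∑ k, c k • v k) i₀ with ht
    have ht0 : t ≠ 0 := by
      intro h0
      have h1 := hmax i1 (Finset.mem_univ _)
      rw [h0, map_zero] at h1
      exact hi1 ((map_eq_zero _).mp (le_antisymm h1 zero_le))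
    have htm : t ∈ A.nonunits := h i₀
    have hc' : ∀ k, t⁻¹ * c k ∈ A := by
      apply (hon fun k => t⁻¹ * c k).mp
      intro i
      have h3 : (∑ k, (t⁻¹ * c k) • v k) i = t⁻¹ * (∑ k, c k • v k) i := by
        simp only [Finset.sum_apply, Pi.smul_apply, smul_eq_mul, Finset.mul_sum, mul_assoc]
      rw [h3, ← ValuationSubring.valuation_le_one_iff, map_mul, map_inv₀]
      have h2 : A.valuation t ≠ 0 := (map_ne_zero _).mpr ht0
      rw [inv_mul_le_iff₀ (lt_of_le_of_ne zero_le (Ne.symm h2)), mul_one]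
      exact hmax i (Finset.mem_univ _)
    intro k
    have hck : c k = t * (t⁻¹ * c k) := by
      field_simp
    rw [hck, ValuationSubring.mem_nonunits_iff, map_mul]
    calc A.valuation t * A.valuation (t⁻¹ * c k) ≤ A.valuation t * 1 := by
          gcongr
          exact (A.valuation_le_one_iff _).mpr (hc' k)
      _ < 1 := by
          rw [mul_one]
          exact A.mem_nonunits_iff.mp htm

/-- The members of an orthonormal family have coordinates in `A`. -/
theorem coord_mem_of_orthonormal (A : ValuationSubring K) {r μ : ℕ} (v : Fin r → Fin μ → K)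
    (hon : ∀ c : Fin r → K, (∀ i, (∑ k, c k • v k) i ∈ A) ↔ ∀ k, c k ∈ A) (k : Fin r)
    (i : Fin μ) : v k i ∈ A := by
  classical
  have h := (hon (Pi.single k 1)).mpr (fun k' => by
    by_cases hk : k' = k
    · subst hk
      simp [A.one_mem]
    · simp [Pi.single_eq_of_ne hk, A.zero_mem]) i
  have h2 : (∑ k', (Pi.single k (1 : K) : Fin r → K) k' • v k') = v k := by
    rw [Finset.sum_eq_single k]
    · simp
    · intro k' _ hk'
      simp [Pi.single_eq_of_ne hk']
    · simp
  rwa [h2] at h

variable (A : ValuationSubring K) (O : ValuationSubring F) (x : F)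

/-- `S_b` in terms of the valuation rings of the places of the disc. -/
theorem mem_discRing_iff (b : K) (f : F) :
    f ∈ H74.discRing A O x b ↔
      f ∈ O ∧ ∀ P : Place K F, H74.InDisc A x b P → f ∈ P.toValuationSubring := by
  constructor
  · rintro ⟨h1, h2⟩
    exact ⟨h1, fun P hP => (ord_nonneg_iff_mem P f).mp (h2 P hP)⟩
  · rintro ⟨h1, h2⟩
    exact ⟨h1, fun P hP => (ord_nonneg_iff_mem P f).mpr (h2 P hP)⟩

/-- `S_b` is stable under `A`-linear combinations. -/
theorem sum_smul_mem_discRing (hA : ∀ a ∈ A, algebraMap K F a ∈ O) (b : K) {ι : Type*}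
    (s : Finset ι) (a : ι → K) (f : ι → F) (ha : ∀ i ∈ s, a i ∈ A)
    (hf : ∀ i ∈ s, f i ∈ H74.discRing A O x b) :
    (∑ i ∈ s, a i • f i) ∈ H74.discRing A O x b := by
  rw [mem_discRing_iff]
  refine ⟨O.toSubring.sum_mem fun i hi => ?_, fun P hP => P.toValuationSubring.toSubring.sum_mem
    fun i hi => ?_⟩
  · rw [Algebra.smul_def]
    exact O.mul_mem _ _ (hA _ (ha i hi)) (hf i hi).1
  · rw [Algebra.smul_def]
    exact P.toValuationSubring.mul_mem _ _ (P.algebraMap_mem' _)
      (((mem_discRing_iff A O x b _).mp (hf i hi)).2 P hP)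

/-- **D5b.** An element of `S_b` vanishing at the places over `b0` is nilpotent modulo
`(x - b0) S_b`: `Y ^ μ = (x - b0) * w` with `w ∈ S_b`, as soon as `ord_P (x - b0) ≤ μ` at the
places over `b0`. -/
theorem exists_pow_eq_mul_of_vanishing (b b0 : K) {μ : ℕ}
    (hx0 : x - algebraMap K F b0 ≠ 0) (hinv : (x - algebraMap K F b0)⁻¹ ∈ O)
    (hμ : ∀ P : Place K F, 0 < P.ord (x - algebraMap K F b0) →
      P.ord (x - algebraMap K F b0) ≤ μ)
    {Y : F} (hY : Y ∈ H74.discRing A O x b)
    (hvan : ∀ P : Place K F, 0 < P.ord (x - algebraMap K F b0) → Y = 0 ∨ 0 < P.ord Y) :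
    ∃ w ∈ H74.discRing A O x b, Y ^ μ = (x - algebraMap K F b0) * w := by
  refine ⟨Y ^ μ / (x - algebraMap K F b0), ⟨?_, fun P hP => ?_⟩, ?_⟩
  · rw [div_eq_mul_inv]
    exact O.mul_mem _ _ (O.pow_mem hY.1 μ) hinv
  · by_cases hYμ : Y ^ μ = 0
    · rw [hYμ, zero_div, Place.ord_zero]
    · rw [Fermat.Agent.S24.ord_div P hYμ hx0, Fermat.Agent.S24.ord_pow]
      -- `x` is regular at `P`
      obtain ⟨c, hcb, hPc⟩ := hP
      have hxc : x - algebraMap K F c ∈ P.toValuationSubring :=
        (ord_nonneg_iff_mem P _).mp hPc.le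
      have hxP : x - algebraMap K F b0 ∈ P.toValuationSubring := by
        have h1 : x - algebraMap K F b0 =
            (x - algebraMap K F c) + (algebraMap K F c - algebraMap K F b0) := by ring
        rw [h1]
        exact P.toValuationSubring.add_mem _ _ hxc
          (P.toValuationSubring.sub_mem (P.algebraMap_mem' _) (P.algebraMap_mem' _))
      have he0 : 0 ≤ P.ord (x - algebraMap K F b0) := (ord_nonneg_iff_mem P _).mpr hxP
      have hYP : 0 ≤ P.ord Y := hY.2 P ⟨c, hcb, hPc⟩
      by_cases he : 0 < P.ord (x - algebraMap K F b0)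
      · have hle := hμ P he
        rcases hvan P he with h0 | hpos
        · exfalso
          apply hYμ
          rw [h0]
          apply zero_pow
          rintro rfl
          simp at hle
          omega
        · have h1 : (μ : ℤ) * 1 ≤ (μ : ℤ) * P.ord Y :=
            mul_le_mul_of_nonneg_left (by omega) (by positivity)
          omega
      · have he' : P.ord (x - algebraMap K F b0) = 0 := by omega
        have h1 : 0 ≤ (μ : ℤ) * P.ord Y := mul_nonneg (by positivity) hYP
        omega
  · field_simp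

/-- **D5 (consumer form).**  `K` algebraically closed of characteristic `0`, `x` transcendental,
`μ = [F : K(x)]`, `θ i ∈ S_b`, `b0` in the residue disc of `b`, `x - b0` a Gauss unit.  There are
`r ≥ μ - #{P over b0}` vectors `v k ∈ A^μ`, linearly independent, orthonormal (hence independent
modulo `m_A`), such that `Y k = ∑ i, v k i • θ i ∈ S_b` and `Y k ^ μ ∈ (x - b0) S_b`. -/
theorem exists_nilpotents [CharZero K] [IsAlgClosed K] [FiniteDimensional K⟮x⟯ F]
    (hx : Transcendental K x) (hA : ∀ a ∈ A, algebraMap K F a ∈ O)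
    (b b0 : K) (hb0 : b0 - b ∈ A.nonunits) (hinv : (x - algebraMap K F b0)⁻¹ ∈ O)
    (θ : Fin (Module.finrank K⟮x⟯ F) → F) (hθ : ∀ i, θ i ∈ H74.discRing A O x b) :
    ∃ (r : ℕ) (v : Fin r → Fin (Module.finrank K⟮x⟯ F) → K),
      Module.finrank K⟮x⟯ F ≤ r + (H42.finite_over x hx b0).toFinset.card ∧
      LinearIndependent K v ∧
      (∀ k i, v k i ∈ A) ∧
      (∀ c : Fin r → K, (∀ i, (∑ k, c k • v k) i ∈ A) ↔ ∀ k, c k ∈ A) ∧
      (∀ c : Fin r → K, (∀ i, (∑ k, c k • v k) i ∈ A.nonunits) → ∀ k, c k ∈ A.nonunits) ∧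
      ∀ k, (∑ i, v k i • θ i) ∈ H74.discRing A O x b ∧
        ∃ w ∈ H74.discRing A O x b,
          (∑ i, v k i • θ i) ^ Module.finrank K⟮x⟯ F = (x - algebraMap K F b0) * w := by
  classical
  set T := (H42.finite_over x hx b0).toFinset with hT
  have hTmem : ∀ P, P ∈ T ↔ 0 < P.ord (x - algebraMap K F b0) := by
    intro P
    simp [hT]
  have : Algebra.IsAlgebraic K⟮x⟯ F := Algebra.IsAlgebraic.of_finite _ _
  have hval : ∀ P ∈ T, ∀ i,
      ∃ c : K, θ i = algebraMap K F c ∨ 0 < P.ord (θ i - algebraMap K F c) := by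
    intro P hP i
    have hdisc : H74.InDisc A x b P := ⟨b0, hb0, (hTmem P).mp hP⟩
    exact Fermat.Agent.S24.exists_sub_algebraMap_ord_pos x P
      (((mem_discRing_iff A O x b _).mp (hθ i)).2 P hdisc)
  obtain ⟨r, v, hr, hli, hon, hvan⟩ := exists_vanishing_vectors A θ T hval
  have hvA := coord_mem_of_orthonormal A v hon
  have hsum : ∑ P ∈ T, P.ord (x - algebraMap K F b0) = (Module.finrank K⟮x⟯ F : ℤ) :=
    H42.sum_ord_over_toFinset x hx b0
  have hμ : ∀ P : Place K F, 0 < P.ord (x - algebraMap K F b0) →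
      P.ord (x - algebraMap K F b0) ≤ (Module.finrank K⟮x⟯ F : ℕ) := by
    intro P hP
    rw [← hsum]
    exact Finset.single_le_sum (fun Q hQ => ((hTmem Q).mp hQ).le) ((hTmem P).mpr hP)
  have hx0 : x - algebraMap K F b0 ≠ 0 := by
    intro h
    apply hx
    rw [sub_eq_zero.mp h]
    exact isAlgebraic_algebraMap b0
  refine ⟨r, v, hr, hli, hvA, hon, mem_nonunits_of_orthonormal A v hli hon, fun k => ?_⟩
  have hYk : (∑ i, v k i • θ i) ∈ H74.discRing A O x b :=
    sum_smul_mem_discRing A O x hA b Finset.univ (v k) θ (fun i _ => hvA k i) (fun i _ => hθ i)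
  exact ⟨hYk, exists_pow_eq_mul_of_vanishing A O x b b0 hx0 hinv hμ hYk
    (fun P hP => hvan k P ((hTmem P).mpr hP))⟩

end Fermat.Agent.S18.H43
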