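/-
S18 / Program J, leaf C1-D5 (helper43): the node `exists_nilpotents` of the C1 sub-skeleton
(helper49, `H49/C1Skel.lean` on origin/helper49 @3dbf4cd), VERBATIM, from the landed
`H43.exists_nilpotents` (`Nilpotents.lean`).

`exists_nilpotents_of_setup` : for a `Setup`, `θ i ∈ S_b`, `b0` in the residue disc of `b` and `T`
the finite set of places over `b0`, there are `r ≥ μ - |T|` vectors `v k ∈ A^μ`, independent modulo
`m_A`, with `(∑ i, v k i • θ i) ^ (μ + 1) ∈ (x - b0) S_b`.
-/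
import Fermat.Agent.S18.H43.Nilpotents
import Fermat.Agent.S18.H22.Subspaces

set_option autoImplicit false

open AlgebraicCurve IntermediateField Fermat.Agent.S18.H74

noncomputable section

namespace Fermat.Agent.S18.H43

variable {K : Type*} [Field K] {A : ValuationSubring K} {F : Type*} [Field F] [Algebra K F]
  {O : ValuationSubring F} {x : F}

/-- `x - b0` is a Gauss unit for `b0 ∈ A`. -/
theorem sub_const_inv_mem (hS : Setup K A F O x) {b0 : K} (hb0 : b0 ∈ A) :
    x - algebraMap K F b0 ∈ O ∧ (x - algebraMap K F b0)⁻¹ ∈ O := by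
  have h := hS.gauss (Polynomial.X - Polynomial.C b0) (fun i => by
    rw [Polynomial.coeff_sub, Polynomial.coeff_X, Polynomial.coeff_C]
    refine A.sub_mem ?_ ?_ <;> split_ifs <;> first | exact A.one_mem | exact A.zero_mem | exact hb0)
    ⟨1, by simp [Polynomial.coeff_X], by
      simp [Polynomial.coeff_X, A.one_mem]⟩
  simpa using h

/-- **D5**, the node `exists_nilpotents` of the C1 sub-skeleton, verbatim. -/
theorem exists_nilpotents_of_setup [IsAlgClosed K] [CharZero K] (hA : A ≠ ⊤)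
    (hS : Setup K A F O x)
    (b : K) (hb : b ∈ A) (θ : Fin (Module.finrank K⟮x⟯ F) → F)
    (hθ : ∀ i, θ i ∈ discRing A O x b) (b0 : K) (hb0 : b0 - b ∈ A.nonunits)
    (T : Finset (Place K F)) (hT : ∀ P, P ∈ T ↔ 0 < P.ord (x - algebraMap K F b0)) :
    ∃ (r : ℕ) (v : Fin r → Fin (Module.finrank K⟮x⟯ F) → K),
      Module.finrank K⟮x⟯ F ≤ r + T.card ∧ (∀ k i, v k i ∈ A) ∧
      (∀ c : Fin r → K, (∀ i, (∑ k, c k • v k) i ∈ A.nonunits) → ∀ k, c k ∈ A.nonunits) ∧
      ∀ k, ∃ w ∈ discRing A O x b,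
        (∑ i, v k i • θ i) ^ (Module.finrank K⟮x⟯ F + 1) = (x - algebraMap K F b0) * w := by
  classical
  have := hS.finite
  have hx : Transcendental K x :=
    Fermat.Agent.S18.H22.transcendental_of_gauss hA hS.mem_iff hS.gauss
  have hb0A : b0 ∈ A := by
    have h1 : b0 = (b0 - b) + b := by ring
    rw [h1]
    exact A.add_mem _ _ (ValuationSubring.nonunits_subset hb0) hb
  have hTeq : T = (H42.finite_over x hx b0).toFinset := by
    ext P
    rw [hT, Set.Finite.mem_toFinset]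
    rfl
  obtain ⟨r, v, hr, -, hvA, -, hind, hnil⟩ := exists_nilpotents A O x hx
    (fun a ha => (hS.mem_iff a).mpr ha) b b0 hb0 (sub_const_inv_mem hS hb0A).2 θ hθ
  refine ⟨r, v, by rw [hTeq]; exact hr, hvA, hind, fun k => ?_⟩
  obtain ⟨hY, w, hw, hYw⟩ := hnil k
  refine ⟨w * ∑ i, v k i • θ i, ?_, ?_⟩
  · rw [mem_discRing_iff] at hw hY ⊢
    exact ⟨O.mul_mem _ _ hw.1 hY.1, fun P hP =>
      P.toValuationSubring.mul_mem _ _ (hw.2 P hP) (hY.2 P hP)⟩
  · rw [pow_succ, hYw, mul_assoc]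

end Fermat.Agent.S18.H43
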