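/-
S18 / Program J, leaf C1-D4 (helper43): the node `disc_count` of the C1 sub-skeleton (helper49,
`H49/C1Skel.lean`), in conditional form: the two nodes it consumes (`tame_local` at the points of
the disc, `gramDet_unit`) are hypotheses, so that the node is closed by `exact`.

`disc_count_of` : for a `Setup`, `b0` in the residue disc of `b` such that every other point of the
disc is unramified, and a tuple `θ` whose Gram determinant `G` is a Gauss unit and satisfies the
tame bound `G = (x - c)^n ε`, `n + #{P over c} ≤ μ`, `ε` a unit over `c`, at every point `c` of the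
disc:  `G = (x - b0)^n ε` with `n + #{P over b0} ≤ μ` and `ε, ε⁻¹ ∈ S_b`.
-/
import Fermat.Agent.S18.H43.NilpotentsSetup

set_option autoImplicit false

open AlgebraicCurve IntermediateField Fermat.Agent.S18.H74

noncomputable section

namespace Fermat.Agent.S18.H43

variable {K : Type*} [Field K] {A : ValuationSubring K} {F : Type*} [Field F] [Algebra K F]
  {O : ValuationSubring F} {x : F}

/-- At a place over `c`, the function `x - c'` (`c' ≠ c`) is a unit. -/
theorem ord_sub_const_eq_zero (P : Place K F) {c c' : K} (hP : 0 < P.ord (x - algebraMap K F c))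
    (hcc : c ≠ c') : P.ord (x - algebraMap K F c') = 0 := by
  have h0 : algebraMap K F (c - c') ≠ 0 := by
    rw [Ne, map_eq_zero]
    exact sub_ne_zero.mpr hcc
  have h1 : P.ord (algebraMap K F (c - c')) = 0 :=
    Fermat.Agent.S24.ord_algebraMap P (sub_ne_zero.mpr hcc)
  have h2 := Fermat.Agent.S24.ord_add_eq_of_lt P h0
    (g := x - algebraMap K F c) (Or.inr (by rw [h1]; exact hP))
  have h3 : algebraMap K F (c - c') + (x - algebraMap K F c) = x - algebraMap K F c' := by
    rw [map_sub]
    ring
  rw [h3] at h2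
  rw [h2.2, h1]

/-- **D4**, the node `disc_count` of the C1 sub-skeleton, from the tame bound at the points of the
disc (`htame`) and the unit property of the Gram determinant (`hgram`). -/
theorem disc_count_of [IsAlgClosed K] [CharZero K] (hA : A ≠ ⊤) (hS : Setup K A F O x)
    (b : K) (hb : b ∈ A) (θ : Fin (Module.finrank K⟮x⟯ F) → F)
    (htame : ∀ c : K, c - b ∈ A.nonunits → ∀ T : Finset (Place K F),
      (∀ P, P ∈ T ↔ 0 < P.ord (x - algebraMap K F c)) →
      ∃ (n : ℕ) (ε : K⟮x⟯), n + T.card ≤ Module.finrank K⟮x⟯ F ∧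
        ((gramDet K F x θ : K⟮x⟯) : F) = (x - algebraMap K F c) ^ n * (ε : F) ∧
        ∀ P : Place K F, 0 < P.ord (x - algebraMap K F c) → P.ord (ε : F) = 0)
    (hgram : ((gramDet K F x θ : K⟮x⟯) : F) ∈ O ∧ ((gramDet K F x θ : K⟮x⟯) : F)⁻¹ ∈ O)
    (b0 : K) (hb0 : b0 - b ∈ A.nonunits)
    (hbr : ∀ c : K, c - b ∈ A.nonunits → c ≠ b0 → ∀ P : Place K F,
      0 < P.ord (x - algebraMap K F c) → P.ord (x - algebraMap K F c) = 1)
    (T : Finset (Place K F)) (hT : ∀ P, P ∈ T ↔ 0 < P.ord (x - algebraMap K F b0)) :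
    ∃ (n : ℕ) (ε : K⟮x⟯), n + T.card ≤ Module.finrank K⟮x⟯ F ∧
      ((gramDet K F x θ : K⟮x⟯) : F) = (x - algebraMap K F b0) ^ n * (ε : F) ∧
      (ε : F) ∈ discRing A O x b ∧ (ε : F)⁻¹ ∈ discRing A O x b := by
  classical
  have := hS.finite
  have hx : Transcendental K x :=
    Fermat.Agent.S18.H22.transcendental_of_gauss hA hS.mem_iff hS.gauss
  have hb0A : b0 ∈ A := by
    have h1 : b0 = (b0 - b) + b := by ring
    rw [h1]
    exact A.add_mem _ _ (ValuationSubring.nonunits_subset hb0) hb
  obtain ⟨hπO, hπO'⟩ := sub_const_inv_mem hS hb0A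
  have hπ0 : x - algebraMap K F b0 ≠ 0 := by
    intro h
    apply hx
    rw [sub_eq_zero.mp h]
    exact isAlgebraic_algebraMap b0
  obtain ⟨n, ε, hn, hε, hεord⟩ := htame b0 hb0 T hT
  refine ⟨n, ε, hn, hε, ?_⟩
  set G : F := ((gramDet K F x θ : K⟮x⟯) : F) with hG
  set π : F := x - algebraMap K F b0 with hπ
  have hπn0 : π ^ n ≠ 0 := pow_ne_zero n hπ0
  -- `ε = G / π^n` and `ε⁻¹ = π^n / G`
  have hεF : (ε : F) = G * (π⁻¹) ^ n := by
    rw [hε, inv_pow]
    field_simp
  have hεO : (ε : F) ∈ O := by
    rw [hεF]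
    exact O.mul_mem _ _ hgram.1 (O.pow_mem hπO' n)
  have hεO' : (ε : F)⁻¹ ∈ O := by
    rw [hεF, mul_inv, inv_pow, inv_inv]
    exact O.mul_mem _ _ hgram.2 (O.pow_mem hπO n)
  -- orders on the disc
  have hord : ∀ P : Place K F, InDisc A x b P → P.ord (ε : F) = 0 := by
    rintro P ⟨c, hc, hPc⟩
    by_cases hcb : c = b0
    · subst hcb
      exact hεord P hPc
    · by_cases hG0 : G = 0
      · have hε0 : (ε : F) = 0 := by
          rw [hεF, hG0, zero_mul]
        rw [hε0, Place.ord_zero]
      · -- the fibre over `c` is unramified, hence has `μ` points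
        set Tc := (H42.finite_over x hx c).toFinset with hTc
        have hTcmem : ∀ Q, Q ∈ Tc ↔ 0 < Q.ord (x - algebraMap K F c) := by
          intro Q
          rw [hTc, Set.Finite.mem_toFinset]
          rfl
        have hsum : ∑ Q ∈ Tc, Q.ord (x - algebraMap K F c) = (Module.finrank K⟮x⟯ F : ℤ) :=
          H42.sum_ord_over_toFinset x hx c
        have hcard : (Tc.card : ℤ) = (Module.finrank K⟮x⟯ F : ℤ) := by
          rw [← hsum, Finset.sum_congr rfl (fun Q hQ => hbr c hc hcb Q ((hTcmem Q).mp hQ))]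
          simp
        obtain ⟨n', ε', hn', hε', hε'ord⟩ := htame c hc Tc hTcmem
        have hn0 : n' = 0 := by
          have : Tc.card = Module.finrank K⟮x⟯ F := by exact_mod_cast hcard
          omega
        rw [hn0, pow_zero, one_mul] at hε'
        have hGord : P.ord G = 0 := by
          rw [hε']
          exact hε'ord P hPc
        have hπord : P.ord π = 0 := ord_sub_const_eq_zero P hPc hcb
        have hε0 : (ε : F) ≠ 0 := by
          intro h0
          apply hG0
          rw [hε, h0, mul_zero]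
        have h1 : P.ord G = P.ord (π ^ n) + P.ord (ε : F) := by
          rw [hε]
          exact P.ord_mul hπn0 hε0
        rw [Fermat.Agent.S24.ord_pow, hπord, hGord] at h1
        omega
  refine ⟨⟨hεO, fun P hP => ?_⟩, ⟨hεO', fun P hP => ?_⟩⟩
  · rw [hord P hP]
  · rw [P.ord_inv, hord P hP]
    simp

end Fermat.Agent.S18.H43
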