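/-
S18 / Program J, C1 node `key_ic` (the Key Lemma, residue side) — helper43, independent backup.

For a `Setup` and the F-level package `H49.KeyHyp A O x b` (minimal tuple `θ`, Gram determinant
`(x - b0)^n ε` with `ε ∈ R_b^×`, `r ≥ n` nilpotents), the reduction `Sbar = red(S_b)` contains every
element of the residue field `κ` of `O` which is integral over `Rbar = red(R_b)`:

* `discResidue`   : helper4's `DiscResidue` for `(H80.OL O x, residue, H5.Rbar A O x b)`;
* `key_closed`    : `∀ z : κ, IsIntegral Rbar z → z ∈ Sbar`   (via the landed `H8.discLocal`);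
* `key_ic_skel`   : the node `key_ic` of `H49/C1Skel.lean`, verbatim.
-/
import Fermat.Agent.S18.H5.Defs
import Fermat.Agent.S18.H80.ResK
import Fermat.Agent.S18.H80.OfSetup
import Fermat.Agent.S18.H4.DiscDVR
import Fermat.Agent.S18.H8.DiscLocal
import Fermat.Agent.S18.H49.C1Defs
import Fermat.Agent.S18.H43.NilpotentsSetup

set_option autoImplicit false

open AlgebraicCurve IntermediateField IsLocalRing Polynomial

noncomputable section

namespace Fermat.Agent.S18.H43

open Fermat.Agent.S18.H74 Fermat.Agent.S18.H80 Fermat.Agent.S18.H5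

variable {K : Type*} [Field K] {A : ValuationSubring K} {F : Type*} [Field F] [Algebra K F]
  {O : ValuationSubring F} {x : F}

/-- helper4's residue data of the disc of `b`, for the residue plumbing of helper80 / helper5. -/
theorem discResidue [IsAlgClosed K] [CharZero K] (hA : A ≠ ⊤) (hS : Setup K A F O x)
    (b : K) (hb : b ∈ A) :
    H4.DiscResidue A O x b (OL (K := K) O x) (residue ↥(OL (K := K) O x)) (Rbar A O x b) where
  mem_iff := hS.mem_iff
  gauss := hS.gauss
  mem_A := hb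
  fib := fun c _ => by
    have := hS.finite
    exact H42.exists_over x (H22.transcendental_of_gauss hA hS.mem_iff hS.gauss) c
  mem_OL := fun _ => Iff.rfl
  red_eq_zero := fun r => by rw [residue_eq_zero_iff, mem_maximalIdeal_OL_iff]
  mem_R := fun _ => mem_Rbar A O x b

section Coord

variable {μ : ℕ} {θ : Fin μ → F} (D : ResData A O x θ) (b : K)

/-- The reductions of the `θ i ∈ S_b` lie in `Sbar`. -/
theorem basisRes_mem_Sbar (hθ : ∀ i, θ i ∈ discRing A O x b) (i : Fin μ) :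
    D.basisRes i ∈ Sbar A O x b := by
  rw [D.basisRes_apply]
  exact residue_mem_Sbar A O x b (f := ⟨θ i, D.theta_mem i⟩) (hθ i)

/-- `Sbar = ⊕ Rbar θ̄_i` (the spanning half), from `S_b = ⊕ R_b θ_i`. -/
theorem exists_coord_Sbar
    (hcoord : ∀ r : Fin μ → K⟮x⟯, (∑ i, (r i : F) * θ i) ∈ discRing A O x b →
      ∀ i, (r i : F) ∈ discRing A O x b)
    (z : ResidueField ↥O) (hz : z ∈ Sbar A O x b) :
    ∃ c : Fin μ → ↥(Rbar A O x b), z = ∑ i, c i • D.basisRes i := by
  obtain ⟨f, hf, rfl⟩ := (mem_Sbar A O x b).1 hz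
  have hr : ∀ i, ((D.basisF.repr (f : F) i : K⟮x⟯) : F) ∈ discRing A O x b :=
    hcoord _ (by rw [D.sum_repr]; exact hf)
  let rO : Fin μ → ↥(OL (K := K) O x) := fun i => ⟨D.basisF.repr (f : F) i, (hr i).1⟩
  refine ⟨fun i => ⟨residue _ (rO i), residue_mem_Rbar A O x b (r := rO i) (hr i)⟩, ?_⟩
  have h1 := D.sum_residue_smul_thetaBar rO
  have h2 : (⟨∑ i, (((rO i : ↥(OL (K := K) O x)) : K⟮x⟯) : F) * θ i, D.sum_mem rO⟩ : ↥O) = f := by
    apply Subtype.ext
    exact D.sum_repr _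
  rw [h2] at h1
  rw [← h1]
  refine Finset.sum_congr rfl fun i _ => ?_
  rw [D.basisRes_apply]
  rfl

end Coord

section RightInverse

/-- A family `v k ∈ A^μ` which is independent modulo `m_A` has a right inverse modulo `m_A`:
there is `U` with `∑ i, v̄ k i * Ū i k' = δ k k'` in the residue field of `A`. -/
theorem exists_right_inverse_residue (A : ValuationSubring K) {r μ : ℕ}
    (v : Fin r → Fin μ → K) (hvA : ∀ k i, v k i ∈ A)
    (hind : ∀ c : Fin r → K, (∀ i, (∑ k, c k • v k) i ∈ A.nonunits) → ∀ k, c k ∈ A.nonunits) :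
    ∃ U : Fin μ → Fin r → ↥A, ∀ k k' : Fin r,
      ∑ i, residue ↥A ⟨v k i, hvA k i⟩ * residue ↥A (U i k') = if k = k' then 1 else 0 := by
  classical
  let vb : Fin r → Fin μ → ResidueField ↥A := fun k i => residue ↥A ⟨v k i, hvA k i⟩
  have hli : LinearIndependent (ResidueField ↥A) vb := by
    rw [Fintype.linearIndependent_iff]
    intro g hg k
    choose a ha using fun k => residue_surjective (g k)
    have h1 : ∀ i, (∑ k, (a k : K) • v k) i ∈ A.nonunits := by
      intro i
      have h2 := congrFun hg i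
      have h3 : residue ↥A (∑ k, a k * ⟨v k i, hvA k i⟩) = 0 := by
        rw [map_sum]
        simp only [map_mul, ha]
        simpa [Finset.sum_apply, vb] using h2
      rw [residue_eq_zero_iff] at h3
      have h4 := ValuationSubring.coe_mem_nonunits_iff.mpr h3
      have h5 : (∑ k, (a k : K) • v k) i = ((∑ k, a k * ⟨v k i, hvA k i⟩ : ↥A) : K) := by
        simp [Finset.sum_apply]
      rw [h5]
      exact h4
    have h5 := hind (fun k => (a k : K)) h1 k
    rw [← ha k, residue_eq_zero_iff]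
    exact ValuationSubring.coe_mem_nonunits_iff.mp h5
  let T : (Fin r → ResidueField ↥A) →ₗ[ResidueField ↥A] (Fin μ → ResidueField ↥A) :=
    Fintype.linearCombination (ResidueField ↥A) vb
  have hT : LinearMap.ker T = ⊥ :=
    LinearMap.ker_eq_bot.mpr (linearIndependent_iff_injective_fintypeLinearCombination.mp hli)
  obtain ⟨G, hG⟩ := T.exists_leftInverse_of_injective hT
  choose U hU using fun i k' => residue_surjective (G (Pi.single i 1) k')
  refine ⟨U, fun k k' => ?_⟩
  simp only [hU]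
  have h6 : vb k = ∑ i, vb k i • (Pi.single i 1 : Fin μ → ResidueField ↥A) := by
    ext j
    simp [Finset.sum_apply, Pi.single_apply]
  have h7 : T (Pi.single k 1) = vb k := by
    simp [T, Fintype.linearCombination_apply, Pi.single_apply]
  have h8 : G (vb k) = Pi.single k 1 := by
    rw [← h7]
    exact LinearMap.congr_fun hG _
  calc ∑ i, residue ↥A ⟨v k i, hvA k i⟩ * G (Pi.single i 1) k'
      = (G (∑ i, vb k i • (Pi.single i 1 : Fin μ → ResidueField ↥A))) k' := by
        simp [map_sum, Finset.sum_apply, vb]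
    _ = (G (vb k)) k' := by rw [← h6]
    _ = if k = k' then 1 else 0 := by
        rw [h8]
        simp [Pi.single_apply, eq_comm]

end RightInverse

section Reduction

variable {μ : ℕ} {θ : Fin μ → F} (D : ResData A O x θ) (b : K)

/-- Constants of `A` lie in `S_b`. -/
theorem const_mem_discRing (hmem : ∀ a : K, algebraMap K F a ∈ O ↔ a ∈ A) {a : K} (ha : a ∈ A) :
    algebraMap K F a ∈ discRing A O x b :=
  ⟨(hmem a).2 ha, fun P _ => by rw [ord_const]⟩

/-- Constants of `A` reduce into `Rbar`. -/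
theorem residue_inclAL_mem_Rbar (a : ↥A) :
    residue ↥(OL (K := K) O x) (inclAL (x := x) D.mem_iff a) ∈ Rbar A O x b :=
  residue_mem_Rbar A O x b (r := inclAL (x := x) D.mem_iff a)
    (const_mem_discRing b D.mem_iff a.2)

/-- A nonunit times an element of `O` is a nonunit. -/
theorem mul_mem_nonunits {a w : F} (ha : a ∈ O.nonunits) (hw : w ∈ O) : a * w ∈ O.nonunits := by
  rw [ValuationSubring.mem_nonunits_iff] at ha ⊢
  rw [map_mul]
  calc O.valuation a * O.valuation w ≤ O.valuation a * 1 := by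
        gcongr
        exact (O.valuation_le_one_iff _).mpr hw
    _ < 1 := by rwa [mul_one]

/-- The constant `b - b0` is a nonunit of `O` when `b0` lies in the disc of `b`. -/
theorem const_sub_mem_nonunits (hmem : ∀ a : K, algebraMap K F a ∈ O ↔ a ∈ A) {b0 : K}
    (hb0 : b0 - b ∈ A.nonunits) : algebraMap K F (b - b0) ∈ O.nonunits := by
  have h1 : b - b0 ∈ A.nonunits := by
    rw [ValuationSubring.mem_nonunits_iff] at *
    rw [← neg_sub, Valuation.map_neg]
    exact hb0
  rw [ValuationSubring.mem_nonunits_iff_or] at h1 ⊢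
  rw [← map_inv₀, hmem, map_eq_zero]
  exact h1

/-- `hyNil`: reduction of `Y ^ m = (x - b0) * w`. -/
theorem residue_pow_eq_smul (hmem : ∀ a : K, algebraMap K F a ∈ O ↔ a ∈ A) {b0 : K}
    (hb0 : b0 - b ∈ A.nonunits)
    {xb : ↥(OL (K := K) O x)} (hxb : ((xb : K⟮x⟯) : F) = x - algebraMap K F b)
    {ϖ : ↥(Rbar A O x b)} (hϖ : (ϖ : ResidueField ↥(OL (K := K) O x)) = residue _ xb)
    {Y w : F} (hY : Y ∈ O) (hw : w ∈ O) {m : ℕ}
    (hYw : Y ^ m = (x - algebraMap K F b0) * w) :
    (residue ↥O ⟨Y, hY⟩) ^ m = ϖ • residue ↥O ⟨w, hw⟩ := by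
  rw [Algebra.smul_def, algebraMap_Rbar_res, hϖ, algebraMap_residue_OL, ← map_pow, ← map_mul,
    ← sub_eq_zero, ← map_sub, residue_eq_zero_iff, mem_maximalIdeal_iff]
  have h1 : (((⟨Y, hY⟩ : ↥O) ^ m - inclOL O x xb * ⟨w, hw⟩ : ↥O) : F)
      = algebraMap K F (b - b0) * w := by
    change Y ^ m - ((xb : K⟮x⟯) : F) * w = _
    rw [hxb, hYw, map_sub]
    ring
  rw [h1]
  exact mul_mem_nonunits (const_sub_mem_nonunits b hmem hb0) hw

/-- The reduction of an `A`-combination of the `θ i`, in the basis `θ̄`. -/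
theorem residue_sum_smul_eq (c : Fin μ → K) (hc : ∀ i, c i ∈ A) (hY : (∑ i, c i • θ i) ∈ O) :
    residue ↥O ⟨∑ i, c i • θ i, hY⟩ =
      ∑ i, (⟨residue _ (inclAL (x := x) D.mem_iff ⟨c i, hc i⟩),
        residue_inclAL_mem_Rbar D b _⟩ : ↥(Rbar A O x b)) • D.basisRes i := by
  have h1 := D.sum_residue_smul_thetaBar (fun i => inclAL (x := x) D.mem_iff ⟨c i, hc i⟩)
  have h2 : (⟨∑ i, (((inclAL (x := x) D.mem_iff ⟨c i, hc i⟩ : ↥(OL (K := K) O x)) : K⟮x⟯) : F)
      * θ i, D.sum_mem _⟩ : ↥O) = ⟨∑ i, c i • θ i, hY⟩ := by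
    apply Subtype.ext
    change ∑ i, (((inclAL (x := x) D.mem_iff ⟨c i, hc i⟩ : ↥(OL (K := K) O x)) : K⟮x⟯) : F)
      * θ i = ∑ i, c i • θ i
    refine Finset.sum_congr rfl fun i _ => ?_
    rw [Algebra.smul_def]
    rfl
  rw [h2] at h1
  rw [← h1]
  refine Finset.sum_congr rfl fun i _ => ?_
  rw [D.basisRes_apply]
  rfl

/-- `hyInd`, abstract form: if the coefficient matrix `V` has a right inverse `U` over `Rbar`, the
combinations `∑ i, V k i • θ̄_i` are independent modulo `ϖ Sbar`. -/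
theorem dvd_of_sum_smul_eq
    (hBb : ∀ z ∈ Sbar A O x b, ∃ c : Fin μ → ↥(Rbar A O x b), z = ∑ i, c i • D.basisRes i)
    (ϖ : ↥(Rbar A O x b)) {r : ℕ} (V : Fin r → Fin μ → ↥(Rbar A O x b))
    (U : Fin μ → Fin r → ↥(Rbar A O x b))
    (hVU : ∀ k k', ∑ i, V k i * U i k' = if k = k' then 1 else 0)
    (c : Fin r → ↥(Rbar A O x b))
    (h : ∃ w ∈ Sbar A O x b, ∑ k, c k • (∑ i, V k i • D.basisRes i) = ϖ • w) :
    ∀ k, ϖ ∣ c k := by
  classical
  obtain ⟨w, hw, hcw⟩ := h
  obtain ⟨wc, rfl⟩ := hBb w hw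
  have key : ∀ i, ∑ k, c k * V k i = ϖ * wc i := by
    intro i
    have h1 : ∑ k, c k • (∑ i, V k i • D.basisRes i)
        = ∑ i, algebraMap ↥(Rbar A O x b) (ResidueField ↥(OL (K := K) O x)) (∑ k, c k * V k i)
            • D.basisRes i := by
      simp only [Finset.smul_sum, smul_smul]
      rw [Finset.sum_comm]
      refine Finset.sum_congr rfl fun i _ => ?_
      rw [algebraMap_smul, Finset.sum_smul]
    have h2 : ϖ • ∑ i, wc i • D.basisRes i
        = ∑ i, algebraMap ↥(Rbar A O x b) (ResidueField ↥(OL (K := K) O x)) (ϖ * wc i)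
            • D.basisRes i := by
      simp only [Finset.smul_sum, smul_smul]
      refine Finset.sum_congr rfl fun i _ => ?_
      rw [algebraMap_smul]
    rw [h1, h2] at hcw
    have h3 := congrArg (fun z => D.basisRes.repr z i) hcw
    simp only [D.basisRes.repr_sum_self] at h3
    exact Subtype.ext h3
  intro k'
  refine ⟨∑ i, wc i * U i k', ?_⟩
  calc c k' = ∑ k, c k * (if k = k' then 1 else 0) := by simp
    _ = ∑ k, c k * ∑ i, V k i * U i k' := by simp only [hVU]
    _ = ∑ i, (∑ k, c k * V k i) * U i k' := by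
        simp only [Finset.mul_sum, Finset.sum_mul, mul_assoc]
        rw [Finset.sum_comm]
    _ = ∑ i, ϖ * wc i * U i k' := by simp only [key]
    _ = ϖ * ∑ i, wc i * U i k' := by simp only [Finset.mul_sum, mul_assoc]

end Reduction

section Main

/-- `Sbar` is integral over `Rbar` (it is spanned by the `θ̄_i`). -/
theorem isIntegral_of_mem_Sbar {μ : ℕ} {θ : Fin μ → F} (D : ResData A O x θ) (b : K)
    (hθ : ∀ i, θ i ∈ discRing A O x b)
    (hcoord : ∀ r : Fin μ → K⟮x⟯, (∑ i, (r i : F) * θ i) ∈ discRing A O x b →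
      ∀ i, (r i : F) ∈ discRing A O x b)
    (z : ResidueField ↥O) (hz : z ∈ Sbar A O x b) : IsIntegral ↥(Rbar A O x b) z := by
  classical
  have hBfg : (Subalgebra.toSubmodule (Sbar A O x b)).FG := by
    refine ⟨Finset.univ.image D.basisRes, ?_⟩
    apply le_antisymm
    · rw [Submodule.span_le]
      intro z hz
      simp only [Finset.coe_image, Finset.coe_univ, Set.image_univ, Set.mem_range] at hz
      obtain ⟨i, rfl⟩ := hz
      exact basisRes_mem_Sbar D b hθ i
    · intro z hz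
      obtain ⟨c, rfl⟩ := exists_coord_Sbar D b hcoord z hz
      exact Submodule.sum_mem _ (fun i _ => Submodule.smul_mem _ _
        (Submodule.subset_span (by simp)))
  exact IsIntegral.of_mem_of_fg (Sbar A O x b) hBfg z hz

/-- The Gram determinant reduces to `ϖ ^ n` times a unit of `Rbar`. -/
theorem exists_unit_discr [CharZero K] {μ : ℕ} {θ : Fin μ → F} (D : ResData A O x θ) (b : K)
    (hres : H4.DiscResidue A O x b (OL (K := K) O x) (residue ↥(OL (K := K) O x))
      (Rbar A O x b))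
    {b0 : K} (hb0 : b0 - b ∈ A.nonunits) (hπO : x - algebraMap K F b0 ∈ O)
    {xb : ↥(OL (K := K) O x)} (hxb : ((xb : K⟮x⟯) : F) = x - algebraMap K F b)
    {ϖ : ↥(Rbar A O x b)} (hϖ : (ϖ : ResidueField ↥(OL (K := K) O x)) = residue _ xb)
    (n : ℕ) (ε : K⟮x⟯)
    (hG : (((Matrix.of fun i j : Fin μ => Algebra.trace K⟮x⟯ F (θ i * θ j)).det : K⟮x⟯) : F)
      = (x - algebraMap K F b0) ^ n * (ε : F))
    (hε1 : (ε : F) ∈ discRing A O x b) (hε2 : (ε : F)⁻¹ ∈ discRing A O x b) :
    ∃ u : ↥(Rbar A O x b), IsUnit u ∧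
      algebraMap ↥(Rbar A O x b) (ResidueField ↥(OL (K := K) O x)) (ϖ ^ n * u)
        = Algebra.discr (ResidueField ↥(OL (K := K) O x)) D.basisRes := by
  have hε0 : ε ≠ 0 := by
    rintro rfl
    apply D.gramO_ne_zero
    apply Subtype.ext
    apply Subtype.ext
    rw [D.coe_gramO, hG]
    simp
  let εO : ↥(OL (K := K) O x) := ⟨ε, hε1.1⟩
  have hε2' : ((ε⁻¹ : K⟮x⟯) : F) ∈ discRing A O x b := by
    rw [IntermediateField.coe_inv]
    exact hε2
  let εO' : ↥(OL (K := K) O x) := ⟨ε⁻¹, hε2'.1⟩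
  have hεε : εO * εO' = 1 := Subtype.ext (mul_inv_cancel₀ hε0)
  let u : ↥(Rbar A O x b) := ⟨residue _ εO, residue_mem_Rbar A O x b (r := εO) hε1⟩
  let u' : ↥(Rbar A O x b) := ⟨residue _ εO', residue_mem_Rbar A O x b (r := εO') hε2'⟩
  have huu : u * u' = 1 := by
    apply Subtype.ext
    change residue _ εO * residue _ εO' = 1
    rw [← map_mul, hεε, map_one]
  refine ⟨u, IsUnit.of_mul_eq_one _ huu, ?_⟩
  let xb0 : ↥(OL (K := K) O x) :=
    ⟨⟨x - algebraMap K F b0, sub_mem (mem_adjoin_simple_self K x)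
      (IntermediateField.algebraMap_mem _ b0)⟩, hπO⟩
  have hxx : residue _ xb0 = residue _ xb := hres.red_eq_of_sub_mem (by
    change (x - algebraMap K F b0) - ((xb : K⟮x⟯) : F) ∈ O.nonunits
    rw [hxb]
    have h1 : x - algebraMap K F b0 - (x - algebraMap K F b) = algebraMap K F (b - b0) := by
      rw [map_sub]
      ring
    rw [h1]
    exact const_sub_mem_nonunits b D.mem_iff hb0)
  have hgram : D.gramO = xb0 ^ n * εO := by
    apply Subtype.ext
    apply Subtype.ext
    rw [D.coe_gramO]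
    exact hG
  have h3 : algebraMap ↥(Rbar A O x b) (ResidueField ↥(OL (K := K) O x)) (ϖ ^ n * u)
      = (ϖ : ResidueField ↥(OL (K := K) O x)) ^ n * residue _ εO := rfl
  rw [h3, ← D.residue_gramO, hgram, map_mul, map_pow, hxx, hϖ]

open Fermat.Agent.S18.H49 in
/-- **Key Lemma** (residue form): under `KeyHyp`, `Sbar = red(S_b)` is integral over
`Rbar = red(R_b)` and contains every element of the residue field of `O` integral over `Rbar`. -/
theorem key_both [IsAlgClosed K] [CharZero K] (hA : A ≠ ⊤) (hS : Setup K A F O x)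
    (b : K) (hb : b ∈ A) (hkey : KeyHyp A O x b) :
    (∀ z ∈ Sbar A O x b, IsIntegral ↥(Rbar A O x b) z) ∧
      ∀ z : ResidueField ↥O, IsIntegral ↥(Rbar A O x b) z → z ∈ Sbar A O x b := by
  classical
  obtain ⟨θ, b0, n, ε, r, v, hθ, hb0, hG, hε1, hε2, hnr, hvA, hind, hnil⟩ := hkey
  have hb0A : b0 ∈ A := by
    have h1 : b0 = (b0 - b) + b := by ring
    rw [h1]
    exact A.add_mem _ _ (ValuationSubring.nonunits_subset hb0) hb
  obtain ⟨hπO, hπO'⟩ := sub_const_inv_mem hS hb0A
  have hg : ((gramDet K F x θ : K⟮x⟯) : F)⁻¹ ∈ O := by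
    rw [hG, mul_inv, ← inv_pow]
    exact O.mul_mem _ _ (O.pow_mem hπO' n) hε2.1
  have D : ResData A O x θ := resData_of_setup hA hS θ hθ.on hg
  refine ⟨isIntegral_of_mem_Sbar D b hθ.mem hθ.coord, ?_⟩
  have hres := discResidue hA hS b hb
  have : IsDiscreteValuationRing ↥(Rbar A O x b) := hres.isDiscreteValuationRing
  have : IsFractionRing ↥(Rbar A O x b) (ResidueField ↥(OL (K := K) O x)) :=
    hres.isFractionRing residue_surjective
  have : FiniteDimensional (ResidueField ↥(OL (K := K) O x)) (ResidueField ↥O) := D.finite_res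
  obtain ⟨xb, ϖ, hxb, hϖ⟩ := hres.exists_unif
  have hirr : Irreducible ϖ := hres.irreducible hxb hϖ
  -- the nilpotents
  have hY : ∀ k, (∑ i, v k i • θ i) ∈ discRing A O x b := fun k =>
    sum_smul_mem_discRing A O x (fun a ha => (hS.mem_iff a).2 ha) b Finset.univ (v k) θ
      (fun i _ => hvA k i) (fun i _ => hθ.mem i)
  let V : Fin r → Fin (Module.finrank K⟮x⟯ F) → ↥(Rbar A O x b) := fun k i =>
    ⟨residue _ (inclAL (x := x) D.mem_iff ⟨v k i, hvA k i⟩), residue_inclAL_mem_Rbar D b _⟩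
  have hyV : ∀ k, residue ↥O ⟨∑ i, v k i • θ i, (hY k).1⟩ = ∑ i, V k i • D.basisRes i :=
    fun k => residue_sum_smul_eq D b (v k) (hvA k) (hY k).1
  -- right inverse of `V`
  obtain ⟨U0, hU0⟩ := exists_right_inverse_residue A v hvA hind
  let U : Fin (Module.finrank K⟮x⟯ F) → Fin r → ↥(Rbar A O x b) := fun i k =>
    ⟨residue _ (inclAL (x := x) D.mem_iff (U0 i k)), residue_inclAL_mem_Rbar D b _⟩
  have hVU : ∀ k k', ∑ i, V k i * U i k' = if k = k' then 1 else 0 := by
    intro k k'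
    apply Subtype.ext
    have h1 := congrArg (resAL (x := x) D.mem_iff) (hU0 k k')
    simp only [map_sum, map_mul, resAL_residue] at h1
    have h2 : ((∑ i, V k i * U i k' : ↥(Rbar A O x b)) : ResidueField ↥(OL (K := K) O x))
        = ∑ i, residue _ (inclAL (x := x) D.mem_iff ⟨v k i, hvA k i⟩)
            * residue _ (inclAL (x := x) D.mem_iff (U0 i k')) := by
      rw [AddSubmonoidClass.coe_finsetSum]
      rfl
    rw [h2, h1]
    split_ifs <;> simp
  -- the discriminant
  obtain ⟨u, hu, hd⟩ := exists_unit_discr D b hres hb0 hπO hxb hϖ n ε hG hε1 hε2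
  refine H8.discLocal (Sbar A O x b) D.basisRes (basisRes_mem_Sbar D b hθ.mem)
    (exists_coord_Sbar D b hθ.coord) ϖ hirr r
    (fun k => residue ↥O ⟨∑ i, v k i • θ i, (hY k).1⟩) ?_ ?_ ?_ (ϖ ^ n * u) hd ?_
  · exact fun k => residue_mem_Sbar A O x b (f := ⟨∑ i, v k i • θ i, (hY k).1⟩) (hY k)
  · intro k
    obtain ⟨w, hw, hYw⟩ := hnil k
    exact ⟨_, residue ↥O ⟨w, hw.1⟩, residue_mem_Sbar A O x b (f := ⟨w, hw.1⟩) hw,
      residue_pow_eq_smul b D.mem_iff hb0 hxb hϖ (hY k).1 hw.1 hYw⟩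
  · intro c hc
    simp only [hyV] at hc
    exact dvd_of_sum_smul_eq D b (exists_coord_Sbar D b hθ.coord) ϖ V U hVU c hc
  · intro hdvd
    have h1 : ϖ ^ (r + 1) ∣ ϖ ^ n := (IsUnit.dvd_mul_right hu).mp hdvd
    have h2 := (pow_dvd_pow_iff hirr.ne_zero hirr.not_isUnit).mp h1
    omega

open Fermat.Agent.S18.H49 in
/-- **Key Lemma**, export for the tubes (`key_gen`): `Sbar` is integrally closed in the residue
field of `O` over `Rbar`. -/
theorem key_closed [IsAlgClosed K] [CharZero K] (hA : A ≠ ⊤) (hS : Setup K A F O x)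
    (b : K) (hb : b ∈ A) (hkey : KeyHyp A O x b) :
    ∀ z : ResidueField ↥O, IsIntegral ↥(Rbar A O x b) z → z ∈ Sbar A O x b :=
  (key_both hA hS b hb hkey).2

open Fermat.Agent.S18.H49 in
/-- **Key Lemma, output (IC)**: the node `key_ic` of the C1 sub-skeleton, verbatim. -/
theorem key_ic_skel [IsAlgClosed K] [CharZero K] (hA : A ≠ ⊤) (hS : Setup K A F O x)
    (b : K) (hb : b ∈ A) (hkey : KeyHyp A O x b) (m : ℕ) (hm : m ≠ 0) (y : F) (hy : y ∈ O)
    (w : F) (hw : w ∈ discRing A O x b) (hyw : y ^ m - w ∈ O.nonunits) :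
    ∃ s ∈ discRing A O x b, y - s ∈ O.nonunits := by
  obtain ⟨hint, hcl⟩ := key_both hA hS b hb hkey
  -- `ȳ ^ m = w̄`
  have h1 : (residue ↥O ⟨y, hy⟩) ^ m = residue ↥O ⟨w, hw.1⟩ := by
    rw [← map_pow, ← sub_eq_zero, ← map_sub, residue_eq_zero_iff, mem_maximalIdeal_iff]
    exact hyw
  have h2 : IsIntegral ↥(Rbar A O x b) ((residue ↥O ⟨y, hy⟩) ^ m) := by
    rw [h1]
    exact hint _ (residue_mem_Sbar A O x b (f := ⟨w, hw.1⟩) hw)
  have h3 : residue ↥O ⟨y, hy⟩ ∈ Sbar A O x b :=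
    hcl _ (IsIntegral.of_pow (Nat.pos_of_ne_zero hm) h2)
  obtain ⟨f, hf, hfy⟩ := (mem_Sbar A O x b).1 h3
  refine ⟨(f : F), hf, ?_⟩
  have h4 : residue ↥O (⟨y, hy⟩ - f) = 0 := by
    rw [map_sub, hfy, sub_self]
  rw [residue_eq_zero_iff, mem_maximalIdeal_iff] at h4
  exact h4

end Main

end Fermat.Agent.S18.H43
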